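import Fermat.Agent.S40x.Edge.EdgeField

/-!
# P-S44, block C3-EDGE (abstract edge lemma), Mathlib only: the valuation-valued consumer forms

`S` a UFD (e.g. a node ring, `Edge/UFD.ufm_of_red_of_isLocalRing`), `K = Frac S`, `u u'` non-associated
primes, `π0 = u u' υ` with `υ` a unit (thickness one: `π0 = p`), `red : S →+* D` onto-or-not a discrete
valuation ring with kernel `(u)` and `red u'` a uniformiser (e.g. `D = S ⧸ (u)`).

* `edge_node_val` **(E)**: if `f ∈ Kˣ` has `p ∣ ord_h f` at every prime `h` not associated to `u, u'`,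
  then there are `A B : ℤ` (`= ord_u f`, `ord_{u'} f`, pinned down by the factorisation
  `f = ε u^A u'^B (g1/g2)^p`) and `h1 h2 ∈ S ∖ (u)` with `f / π0 ^ A = h1 / h2` and
  `red h1 ~ (red u')^n1`, `red h2 ~ (red u')^n2`, `n1 - n2 ≡ B - A (mod p)`:
  "`ord_{P_s} red_∞ (f / p^(v_∞ f)) ≡ v_0 f - v_∞ f (mod p)`".
* `edge_smooth_val` **(E0)**: smooth point, `π0` prime with `red : S →+* D` of kernel `(π0)`: the same
  with `n1 - n2 ≡ 0 (mod p)`.
-/

set_option autoImplicit false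
set_option linter.unusedSectionVars false

namespace Fermat.Agent.S40x.Edge

variable {S : Type*} [CommRing S] [IsDomain S] [UniqueFactorizationMonoid S]
variable {K : Type*} [Field K] [Algebra S K] [IsFractionRing S K]
variable {D : Type*} [CommRing D] [IsDomain D] [IsDiscreteValuationRing D]

/-- in a DVR with uniformiser `ϖ`: `ε * ϖ^m * g^p ~ ϖ^(m + p c)` when `g ~ ϖ^c` -/
theorem associated_unit_mul_pow_mul_pow {ϖ e g : D} (he : IsUnit e) {c : ℕ}
    (hg : Associated g (ϖ ^ c)) (m p : ℕ) :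
    Associated (e * ϖ ^ m * g ^ p) (ϖ ^ (m + p * c)) := by
  have h1 : Associated (g ^ p) (ϖ ^ (p * c)) := by
    have := hg.pow_pow (n := p)
    rwa [← pow_mul, mul_comm c p] at this
  have h2 : Associated (e * ϖ ^ m) (ϖ ^ m) := by
    obtain ⟨e', rfl⟩ := he
    exact associated_unit_mul_left _ _ e'.isUnit
  have := h2.mul_mul h1
  rwa [← pow_add] at this

theorem algebraMap_units_zpow (υ : Sˣ) (n : ℤ) :
    algebraMap S K ((υ ^ n : Sˣ) : S) = algebraMap S K (υ : S) ^ n := by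
  have h1 : ((Units.map (algebraMap S K).toMonoidHom (υ ^ n) : Kˣ) : K) =
      algebraMap S K ((υ ^ n : Sˣ) : S) := rfl
  rw [← h1, map_zpow, Units.val_zpow_eq_zpow_val]
  rfl

/-- **(E)**, valuation-valued consumer form at a node. -/
theorem edge_node_val {p : ℕ} (hp : p ≠ 0) {u u' π0 : S} (hu : Prime u) (hu' : Prime u')
    (hna : ¬ Associated u u') (υ : Sˣ) (hπ : π0 = u * u' * υ)
    (red : S →+* D) (hker : ∀ r : S, red r = 0 ↔ u ∣ r) (hunif : Irreducible (red u'))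
    (f : K) (hf : f ≠ 0)
    (H : ∀ h : S, Prime h → ¬ Associated h u → ¬ Associated h u' →
      ∀ f1 f2 : S, f2 ≠ 0 → f * algebraMap S K f2 = algebraMap S K f1 →
      ∀ n1 n2 : ℕ, h ^ n1 ∣ f1 → ¬ h ^ (n1 + 1) ∣ f1 → h ^ n2 ∣ f2 → ¬ h ^ (n2 + 1) ∣ f2 →
        (p : ℤ) ∣ (n1 : ℤ) - n2) :
    ∃ (A B : ℤ) (h1 h2 : S) (n1 n2 : ℕ), ¬ u ∣ h1 ∧ ¬ u ∣ h2 ∧
      f / algebraMap S K π0 ^ A = algebraMap S K h1 / algebraMap S K h2 ∧
      (∃ (ε : Sˣ) (g1 g2 : S), ¬ u ∣ g1 ∧ ¬ u' ∣ g1 ∧ ¬ u ∣ g2 ∧ ¬ u' ∣ g2 ∧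
        f = algebraMap S K ε * algebraMap S K u ^ A * algebraMap S K u' ^ B *
          (algebraMap S K g1 / algebraMap S K g2) ^ p) ∧
      Associated (red h1) (red u' ^ n1) ∧ Associated (red h2) (red u' ^ n2) ∧
      ((n1 : ℤ) - n2) ≡ B - A [ZMOD p] := by
  obtain ⟨A, B, ε, g1, g2, hg1, hg1', hg2, hg2', hfe⟩ :=
    exists_edge_factorisation_field hp hu hu' f hf H
  have hdiv := edge_div_pow (K := K) υ hπ hu.ne_zero hu'.ne_zero hfe
  rw [← algebraMap_units_zpow] at hdiv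
  have hinj : Function.Injective (algebraMap S K) := IsFractionRing.injective S K
  have hu'K : algebraMap S K u' ≠ 0 := fun h0 => hu'.ne_zero (hinj (by rw [h0, map_zero]))
  have hg2K : algebraMap S K g2 ≠ 0 := by
    intro h0
    have : g2 = 0 := hinj (by rw [h0, map_zero])
    exact hg2 (this ▸ dvd_zero u)
  -- reductions of `g1`, `g2` are nonzero, hence associated to powers of the uniformiser
  have hr1 : red g1 ≠ 0 := fun h0 => hg1 ((hker g1).mp h0)
  have hr2 : red g2 ≠ 0 := fun h0 => hg2 ((hker g2).mp h0)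
  obtain ⟨c1, hc1⟩ := IsDiscreteValuationRing.associated_pow_irreducible hr1 hunif
  obtain ⟨c2, hc2⟩ := IsDiscreteValuationRing.associated_pow_irreducible hr2 hunif
  have hnu : ¬ u ∣ u' := fun hd => hna (hu.associated_of_dvd hu' hd)
  set e : S := (ε : S) * ((υ ^ (-A) : Sˣ) : S) with he
  have heu : IsUnit e := ε.isUnit.mul (υ ^ (-A)).isUnit
  have hne : ¬ u ∣ e := fun hd => hu.not_isUnit (isUnit_of_dvd_unit hd heu)
  rcases le_or_gt A B with hAB | hAB
  · -- `B - A = m ≥ 0`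
    obtain ⟨m, hm⟩ := Int.eq_ofNat_of_zero_le (sub_nonneg.mpr hAB)
    refine ⟨A, B, e * u' ^ m * g1 ^ p, g2 ^ p, m + p * c1, 0 + p * c2, ?_, ?_, ?_,
      ⟨ε, g1, g2, hg1, hg1', hg2, hg2', hfe⟩, ?_, ?_, ?_⟩
    · intro hd
      rcases hu.dvd_or_dvd hd with hd | hd
      · rcases hu.dvd_or_dvd hd with hd | hd
        · exact hne hd
        · exact hnu (hu.dvd_of_dvd_pow hd)
      · exact hg1 (hu.dvd_of_dvd_pow hd)
    · exact fun hd => hg2 (hu.dvd_of_dvd_pow hd)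
    · rw [hdiv, hm, zpow_natCast, he, div_pow]
      simp only [map_mul, map_pow]
      field_simp
    · simp only [map_mul, map_pow]
      exact associated_unit_mul_pow_mul_pow (heu.map red) hc1 m p
    · have := associated_unit_mul_pow_mul_pow (ϖ := red u') isUnit_one hc2 0 p
      simpa [map_pow] using this
    · have : ((m + p * c1 : ℕ) : ℤ) - ((0 + p * c2 : ℕ) : ℤ) =
          (B - A) + (p : ℤ) * ((c1 : ℤ) - c2) := by
        rw [hm]; push_cast; ring
      rw [this]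
      exact Int.modEq_iff_dvd.mpr ⟨-((c1 : ℤ) - c2), by ring⟩
  · -- `A - B = m > 0`
    obtain ⟨m, hm⟩ := Int.eq_ofNat_of_zero_le (sub_nonneg.mpr hAB.le)
    refine ⟨A, B, e * u' ^ 0 * g1 ^ p, u' ^ m * g2 ^ p, 0 + p * c1, m + p * c2, ?_, ?_, ?_,
      ⟨ε, g1, g2, hg1, hg1', hg2, hg2', hfe⟩, ?_, ?_, ?_⟩
    · intro hd
      rw [pow_zero, mul_one] at hd
      rcases hu.dvd_or_dvd hd with hd | hd
      · exact hne hd
      · exact hg1 (hu.dvd_of_dvd_pow hd)
    · intro hd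
      rcases hu.dvd_or_dvd hd with hd | hd
      · exact hnu (hu.dvd_of_dvd_pow hd)
      · exact hg2 (hu.dvd_of_dvd_pow hd)
    · have hBA : B - A = -(m : ℤ) := by rw [← hm]; ring
      have hz : algebraMap S K u' ^ (-(m : ℤ)) = (algebraMap S K u' ^ m)⁻¹ := by
        rw [zpow_neg, zpow_natCast]
      rw [hdiv, hBA, hz, he, div_pow]
      simp only [map_mul, map_pow]
      field_simp
    · simp only [map_mul, map_pow]
      exact associated_unit_mul_pow_mul_pow (heu.map red) hc1 0 p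
    · have := associated_unit_mul_pow_mul_pow (ϖ := red u') isUnit_one hc2 m p
      simpa [map_pow, map_mul] using this
    · have : ((0 + p * c1 : ℕ) : ℤ) - ((m + p * c2 : ℕ) : ℤ) =
          (B - A) + (p : ℤ) * ((c1 : ℤ) - c2) := by
        have hBA : B - A = -(m : ℤ) := by rw [← hm]; ring
        rw [hBA]; push_cast; ring
      rw [this]
      exact Int.modEq_iff_dvd.mpr ⟨-((c1 : ℤ) - c2), by ring⟩

/-- **(E0)**, valuation-valued consumer form at a smooth point: `π0` prime, `red` of kernel `(π0)`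
into a DVR with uniformiser `ϖ`. -/
theorem edge_smooth_val {p : ℕ} (hp : p ≠ 0) {π0 : S} (hπ0 : Prime π0)
    (red : S →+* D) (hker : ∀ r : S, red r = 0 ↔ π0 ∣ r) {ϖ : D} (hunif : Irreducible ϖ)
    (f : K) (hf : f ≠ 0)
    (H : ∀ h : S, Prime h → ¬ Associated h π0 →
      ∀ f1 f2 : S, f2 ≠ 0 → f * algebraMap S K f2 = algebraMap S K f1 →
      ∀ n1 n2 : ℕ, h ^ n1 ∣ f1 → ¬ h ^ (n1 + 1) ∣ f1 → h ^ n2 ∣ f2 → ¬ h ^ (n2 + 1) ∣ f2 →
        (p : ℤ) ∣ (n1 : ℤ) - n2) :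
    ∃ (A : ℤ) (h1 h2 : S) (n1 n2 : ℕ), ¬ π0 ∣ h1 ∧ ¬ π0 ∣ h2 ∧
      f / algebraMap S K π0 ^ A = algebraMap S K h1 / algebraMap S K h2 ∧
      Associated (red h1) (ϖ ^ n1) ∧ Associated (red h2) (ϖ ^ n2) ∧
      ((n1 : ℤ) - n2) ≡ 0 [ZMOD p] := by
  obtain ⟨A, B, ε, g1, g2, hg1, -, hg2, -, hfe⟩ :=
    exists_edge_factorisation_field hp hπ0 hπ0 f hf (fun h hpr h1 _ => H h hpr h1)
  have hinj : Function.Injective (algebraMap S K) := IsFractionRing.injective S K
  have hπK : algebraMap S K π0 ≠ 0 := fun h0 => hπ0.ne_zero (hinj (by rw [h0, map_zero]))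
  have hg2K : algebraMap S K g2 ≠ 0 := by
    intro h0
    have : g2 = 0 := hinj (by rw [h0, map_zero])
    exact hg2 (this ▸ dvd_zero π0)
  have hr1 : red g1 ≠ 0 := fun h0 => hg1 ((hker g1).mp h0)
  have hr2 : red g2 ≠ 0 := fun h0 => hg2 ((hker g2).mp h0)
  obtain ⟨c1, hc1⟩ := IsDiscreteValuationRing.associated_pow_irreducible hr1 hunif
  obtain ⟨c2, hc2⟩ := IsDiscreteValuationRing.associated_pow_irreducible hr2 hunif
  have hne : ¬ π0 ∣ (ε : S) := fun hd => hπ0.not_isUnit (isUnit_of_dvd_unit hd ε.isUnit)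
  refine ⟨A + B, ε * g1 ^ p, g2 ^ p, 0 + p * c1, 0 + p * c2, ?_, ?_, ?_, ?_, ?_, ?_⟩
  · intro hd
    rcases hπ0.dvd_or_dvd hd with hd | hd
    · exact hne hd
    · exact hg1 (hπ0.dvd_of_dvd_pow hd)
  · exact fun hd => hg2 (hπ0.dvd_of_dvd_pow hd)
  · rw [hfe, zpow_add₀ hπK, div_pow]
    simp only [map_mul, map_pow]
    have h1 : algebraMap S K π0 ^ A ≠ 0 := zpow_ne_zero _ hπK
    have h2 : algebraMap S K π0 ^ B ≠ 0 := zpow_ne_zero _ hπK
    field_simp
  · have := associated_unit_mul_pow_mul_pow (ϖ := ϖ) (ε.isUnit.map red) hc1 0 p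
    simpa [map_pow, map_mul] using this
  · have := associated_unit_mul_pow_mul_pow (ϖ := ϖ) isUnit_one hc2 0 p
    simpa [map_pow] using this
  · have : ((0 + p * c1 : ℕ) : ℤ) - ((0 + p * c2 : ℕ) : ℤ) = 0 + (p : ℤ) * ((c1 : ℤ) - c2) := by
      push_cast; ring
    rw [this]
    exact Int.modEq_iff_dvd.mpr ⟨-((c1 : ℤ) - c2), by ring⟩

end Fermat.Agent.S40x.Edge
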