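import Fermat.Agent.S40x.Edge.UFD
import Fermat.Agent.S40x.Edge.EdgeVal
import Fermat.Agent.S40x.Node.NodeDatum

/-!
# P-S44, block C3-EDGE: the edge lemma for the literals `IsNodeRing` / `IsSmoothPtRing`

Wrappers of `Edge/EdgeVal` for helper50's seam literals (`Node/NodeDatum`):

* `ufm_of_isNodeRing`, `ufm_of_isSmoothPtRing`: the rings are unique factorisation domains;
* `tame_of_isNodeRing` **(TAME)**: `S` a node ring (`u u' = p ψ`), `K = Frac S`, `f ∈ Kˣ` with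
  `p ∣ ord_h f` at every prime `h` not associated to `u, u'`: there are `A B : ℤ`, `h1 h2 ∈ S ∖ (u)`
  with `f / p ^ A = h1 / h2`, `f = ε u^A u'^B (g1/g2)^p`, and in the DVR `S ⧸ (u)` (uniformiser the
  class of `u'`) `h1 ~ u'^n1`, `h2 ~ u'^n2`, `n1 - n2 ≡ B - A (mod p)`.
  The symmetric statement is `tame_of_isNodeRing h.symm`.
* `tame_of_isSmoothPtRing` **(b5)**: at a smooth point the order of the reduction is `≡ 0 (mod p)`.
-/

set_option autoImplicit false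
set_option linter.unusedSectionVars false

namespace Fermat.Agent.S40x.Edge

open Fermat.Agent.S40x.Node

variable {S : Type*} [CommRing S] [IsDomain S] [IsNoetherianRing S] [IsLocalRing S]
variable {K : Type*} [Field K] [Algebra S K] [IsFractionRing S K]

theorem ufm_of_isNodeRing {p : ℕ} {u u' : S}
    (h : IsNodeRing S p u u') : UniqueFactorizationMonoid S :=
  ufm_of_quotient_principal u h.u_mem_jacobson h.prime_u h.quotient_isPrincipal

theorem ufm_of_isSmoothPtRing {p : ℕ} {t : S}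
    (h : IsSmoothPtRing S p t) : UniqueFactorizationMonoid S :=
  ufm_of_quotient_principal (p : S) h.natCast_mem_jacobson h.prime_p h.quotient_isPrincipal

/-- **(TAME)** at a node ring. -/
theorem tame_of_isNodeRing {p : ℕ} (hp : p ≠ 0) {u u' : S} (h : IsNodeRing S p u u')
    (f : K) (hf : f ≠ 0)
    (H : ∀ q : S, Prime q → ¬ Associated q u → ¬ Associated q u' →
      ∀ f1 f2 : S, f2 ≠ 0 → f * algebraMap S K f2 = algebraMap S K f1 →
      ∀ n1 n2 : ℕ, q ^ n1 ∣ f1 → ¬ q ^ (n1 + 1) ∣ f1 → q ^ n2 ∣ f2 → ¬ q ^ (n2 + 1) ∣ f2 →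
        (p : ℤ) ∣ (n1 : ℤ) - n2) :
    ∃ (A B : ℤ) (h1 h2 : S) (n1 n2 : ℕ), ¬ u ∣ h1 ∧ ¬ u ∣ h2 ∧
      f / (p : K) ^ A = algebraMap S K h1 / algebraMap S K h2 ∧
      (∃ (ε : Sˣ) (g1 g2 : S), ¬ u ∣ g1 ∧ ¬ u' ∣ g1 ∧ ¬ u ∣ g2 ∧ ¬ u' ∣ g2 ∧
        f = algebraMap S K ε * algebraMap S K u ^ A * algebraMap S K u' ^ B *
          (algebraMap S K g1 / algebraMap S K g2) ^ p) ∧
      Associated (Ideal.Quotient.mk (Ideal.span {u}) h1)
        (Ideal.Quotient.mk (Ideal.span {u}) u' ^ n1) ∧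
      Associated (Ideal.Quotient.mk (Ideal.span {u}) h2)
        (Ideal.Quotient.mk (Ideal.span {u}) u' ^ n2) ∧
      ((n1 : ℤ) - n2) ≡ B - A [ZMOD p] := by
  have := ufm_of_isNodeRing h
  have := h.quotient_isDomain
  have := h.quotient_isDiscreteValuationRing
  obtain ⟨ψ, hψ⟩ := h.mul_eq
  have hπ : (p : S) = u * u' * ((ψ⁻¹ : Sˣ) : S) := by
    rw [hψ, mul_assoc, Units.mul_inv, mul_one]
  have key := edge_node_val (K := K) hp h.prime_u h.prime_u' h.not_associated ψ⁻¹ hπ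
    (Ideal.Quotient.mk (Ideal.span {u})) (fun r => Fermat.Agent.S40x.Node.mk_eq_zero_iff)
    h.irreducible_mk_u' f hf H
  simpa only [map_natCast] using key

/-- **(b5)** at a smooth-point ring. -/
theorem tame_of_isSmoothPtRing {p : ℕ} (hp : p ≠ 0) {t : S} (h : IsSmoothPtRing S p t)
    (f : K) (hf : f ≠ 0)
    (H : ∀ q : S, Prime q → ¬ Associated q (p : S) →
      ∀ f1 f2 : S, f2 ≠ 0 → f * algebraMap S K f2 = algebraMap S K f1 →
      ∀ n1 n2 : ℕ, q ^ n1 ∣ f1 → ¬ q ^ (n1 + 1) ∣ f1 → q ^ n2 ∣ f2 → ¬ q ^ (n2 + 1) ∣ f2 →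
        (p : ℤ) ∣ (n1 : ℤ) - n2) :
    ∃ (A : ℤ) (h1 h2 : S) (n1 n2 : ℕ), ¬ (p : S) ∣ h1 ∧ ¬ (p : S) ∣ h2 ∧
      f / (p : K) ^ A = algebraMap S K h1 / algebraMap S K h2 ∧
      Associated (Ideal.Quotient.mk (Ideal.span {(p : S)}) h1)
        (Ideal.Quotient.mk (Ideal.span {(p : S)}) t ^ n1) ∧
      Associated (Ideal.Quotient.mk (Ideal.span {(p : S)}) h2)
        (Ideal.Quotient.mk (Ideal.span {(p : S)}) t ^ n2) ∧
      ((n1 : ℤ) - n2) ≡ 0 [ZMOD p] := by
  have := ufm_of_isSmoothPtRing h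
  have := h.quotient_isDomain
  have := h.quotient_isDiscreteValuationRing
  have key := edge_smooth_val (K := K) hp h.prime_p
    (Ideal.Quotient.mk (Ideal.span {(p : S)})) (fun r => Fermat.Agent.S40x.Node.mk_eq_zero_iff)
    h.irreducible_mk f hf H
  simpa only [map_natCast] using key

end Fermat.Agent.S40x.Edge
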