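import Mathlib

/-!
# S40/S44 project, block B2 (edge lemma by commutative algebra), Mathlib only

* `ufm_of_red` **(U)**: a Noetherian domain `R` with an element `z ≠ 0` of the Jacobson radical and
  a surjective ring hom `red : R →+* D` onto a principal ideal domain with kernel `(z)` (e.g. `D` the
  discrete valuation ring of the component `C_∞` at the node) is a unique factorisation domain.
  Proof: Kaplansky's criterion + Nakayama.  No regularity, no dimension theory, no completion.
* `ufm_of_quotient_principal`: the same with `D = R ⧸ (z)`.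
* `prime_of_red`: in this situation `z` is a prime element.
-/

set_option autoImplicit false
set_option linter.unusedSectionVars false

namespace Fermat.Agent.S40x.Edge

open Ideal

variable {R : Type*} [CommRing R] [IsDomain R]
variable {D : Type*} [CommRing D] [IsDomain D]

/-- `z` is prime when `(z)` is the kernel of a ring hom to a domain -/
theorem prime_of_red {z : R} (hz0 : z ≠ 0) (red : R →+* D)
    (hker : ∀ r : R, red r = 0 ↔ z ∣ r) : Prime z := by
  refine ⟨hz0, fun hu => ?_, fun a b hab => ?_⟩
  · -- `z` a unit would give `red 1 = 0`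
    have h1 : red 1 = 0 := (hker 1).mpr hu.dvd
    rw [map_one] at h1
    exact one_ne_zero h1
  · have h0 : red (a * b) = 0 := (hker _).mpr hab
    rw [map_mul, mul_eq_zero] at h0
    exact h0.imp (hker a).mp (hker b).mp

/-- a prime ideal `q` not containing `z`, whose image under `red` is generated by `red g`, `g ∈ q`,
satisfies `q ≤ (g) ⊔ (z) • q` -/
theorem le_span_sup_smul_of_map_eq {z g : R} (red : R →+* D)
    (hker : ∀ r : R, red r = 0 ↔ z ∣ r) (hsurj : Function.Surjective red)
    {q : Ideal R} (hq : q.IsPrime) (hzq : z ∉ q) (hgq : g ∈ q)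
    (hmap : q.map red = span {red g}) :
    q ≤ span {g} ⊔ span {z} • q := by
  intro h hh
  have h1 : red h ∈ q.map red := Ideal.mem_map_of_mem _ hh
  rw [hmap, Ideal.mem_span_singleton] at h1
  obtain ⟨abar, ha⟩ := h1
  obtain ⟨a, rfl⟩ := hsurj abar
  have h0 : red (h - g * a) = 0 := by rw [map_sub, map_mul, ha, sub_self]
  obtain ⟨h1, hh1⟩ := (hker _).mp h0
  have hz1 : z * h1 ∈ q := by
    rw [← hh1]
    exact q.sub_mem hh (q.mul_mem_right a hgq)
  have hh1q : h1 ∈ q := (hq.mem_or_mem hz1).resolve_left hzq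
  have : h = g * a + z * h1 := by rw [← hh1]; ring
  rw [this]
  refine Submodule.add_mem_sup (Ideal.mem_span_singleton.mpr ⟨a, rfl⟩) ?_
  rw [smul_eq_mul]
  exact Ideal.mul_mem_mul (Ideal.mem_span_singleton_self z) hh1q

/-- **(U)** Kaplansky + Nakayama. -/
theorem ufm_of_red [IsNoetherianRing R] [IsPrincipalIdealRing D] {z : R} (hz0 : z ≠ 0)
    (hzJ : z ∈ Ideal.jacobson (⊥ : Ideal R)) (red : R →+* D)
    (hker : ∀ r : R, red r = 0 ↔ z ∣ r) (hsurj : Function.Surjective red) :
    UniqueFactorizationMonoid R := by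
  have hz : Prime z := prime_of_red hz0 red hker
  rw [UniqueFactorizationMonoid.iff_exists_prime_mem_of_isPrime]
  intro q hq0 hqp
  by_cases hzq : z ∈ q
  · exact ⟨z, hzq, hz⟩
  · obtain ⟨gbar, hg⟩ := (IsPrincipalIdealRing.principal (q.map red)).principal
    have hgmem : gbar ∈ q.map red := by
      rw [hg]; exact Submodule.mem_span_singleton_self gbar
    obtain ⟨g, hgq, rfl⟩ := (Ideal.mem_map_iff_of_surjective _ hsurj).mp hgmem
    have hle : q ≤ span {g} ⊔ span {z} • q :=
      le_span_sup_smul_of_map_eq red hker hsurj hqp hzq hgq hg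
    have hJ : span {z} ≤ Ideal.jacobson (⊥ : Ideal R) :=
      (Ideal.span_singleton_le_iff_mem _).mpr hzJ
    have hqle : q ≤ span {g} :=
      Submodule.le_of_le_smul_of_le_jacobson_bot (IsNoetherian.noetherian q) hJ hle
    have hqeq : q = span {g} :=
      le_antisymm hqle ((Ideal.span_singleton_le_iff_mem _).mpr hgq)
    have hg0 : g ≠ 0 := by
      rintro rfl
      apply hq0
      rw [hqeq]; simp
    refine ⟨g, hgq, ?_⟩
    rw [← Ideal.span_singleton_prime hg0, ← hqeq]
    exact hqp

/-- **(U)** for a local ring: `z` in the maximal ideal. -/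
theorem ufm_of_red_of_isLocalRing [IsNoetherianRing R] [IsLocalRing R] [IsPrincipalIdealRing D]
    {z : R} (hz0 : z ≠ 0) (hzm : z ∈ IsLocalRing.maximalIdeal R) (red : R →+* D)
    (hker : ∀ r : R, red r = 0 ↔ z ∣ r) (hsurj : Function.Surjective red) :
    UniqueFactorizationMonoid R :=
  ufm_of_red hz0 (by rwa [IsLocalRing.jacobson_eq_maximalIdeal ⊥ bot_ne_top]) red hker hsurj

/-- **(U)** with `D = R ⧸ (z)`: it suffices that every ideal of the quotient is principal. -/
theorem ufm_of_quotient_principal [IsNoetherianRing R] (z : R)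
    (hzJ : z ∈ Ideal.jacobson (⊥ : Ideal R)) (hz : Prime z)
    (hpid : ∀ I : Ideal (R ⧸ span {z}), I.IsPrincipal) :
    UniqueFactorizationMonoid R := by
  have : (span {z}).IsPrime := (Ideal.span_singleton_prime hz.ne_zero).mpr hz
  have : IsPrincipalIdealRing (R ⧸ span {z}) := ⟨hpid⟩
  refine ufm_of_red hz.ne_zero hzJ (Ideal.Quotient.mk (span {z})) (fun r => ?_)
    Ideal.Quotient.mk_surjective
  rw [Ideal.Quotient.eq_zero_iff_mem, Ideal.mem_span_singleton]

end Fermat.Agent.S40x.Edge
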