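import Fermat.Agent.S40x.Edge.PthPowerDiv

/-!
# S40/S44 project, block B2 (abstract algebra), Mathlib only: edge factorisation in `Frac R`

`R` a UFD, `K` its fraction field, `z z'` primes of `R`.

* `exists_edge_factorisation_field` **(E-field)**: if `f ∈ Kˣ` has `p ∣ ord_h f` at every prime `h`
  not associated to `z`, `z'` (stated through an arbitrary representation `f = f1 / f2` and exact
  exponents), then `f = ε * z ^ A * z' ^ B * (g1 / g2) ^ p` in `K` with `A B : ℤ`, `ε ∈ Rˣ`,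
  `g1, g2 ∈ R` prime to `z` and `z'`.
* `edge_div_pow` : consequently, if `π0 = z * z' * (unit)`, then
  `f / π0 ^ A = ε' * z' ^ (B - A) * (g1 / g2) ^ p`  (the element whose reduction modulo `z` the
  consumer computes: its order at the node is `B - A` modulo `p`).
-/

set_option autoImplicit false
set_option linter.unusedSectionVars false

namespace Fermat.Agent.S40x.Edge

variable {R : Type*} [CommRing R] [IsDomain R] [UniqueFactorizationMonoid R]
variable {K : Type*} [Field K] [Algebra R K] [IsFractionRing R K]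

theorem exists_edge_factorisation_field {p : ℕ} (hp : p ≠ 0) {z z' : R} (hz : Prime z)
    (hz' : Prime z') (f : K) (hf : f ≠ 0)
    (H : ∀ h : R, Prime h → ¬ Associated h z → ¬ Associated h z' →
      ∀ f1 f2 : R, f2 ≠ 0 → f * algebraMap R K f2 = algebraMap R K f1 →
      ∀ n1 n2 : ℕ, h ^ n1 ∣ f1 → ¬ h ^ (n1 + 1) ∣ f1 → h ^ n2 ∣ f2 → ¬ h ^ (n2 + 1) ∣ f2 →
        (p : ℤ) ∣ (n1 : ℤ) - n2) :
    ∃ (A B : ℤ) (ε : Rˣ) (g1 g2 : R), ¬ z ∣ g1 ∧ ¬ z' ∣ g1 ∧ ¬ z ∣ g2 ∧ ¬ z' ∣ g2 ∧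
      f = algebraMap R K ε * algebraMap R K z ^ A * algebraMap R K z' ^ B *
        (algebraMap R K g1 / algebraMap R K g2) ^ p := by
  obtain ⟨f1, f2, hf2mem, hfrac⟩ := IsFractionRing.div_surjective (A := R) f
  have hf2 : f2 ≠ 0 := nonZeroDivisors.ne_zero hf2mem
  have hinj : Function.Injective (algebraMap R K) := IsFractionRing.injective R K
  have hf2K : algebraMap R K f2 ≠ 0 := fun h0 => hf2 (hinj (by rw [h0, map_zero]))
  have hmul : f * algebraMap R K f2 = algebraMap R K f1 := by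
    rw [← hfrac, div_mul_cancel₀ _ hf2K]
  have hf1 : f1 ≠ 0 := by
    rintro rfl
    rw [map_zero] at hmul
    exact hf ((mul_eq_zero.mp hmul).resolve_right hf2K)
  obtain ⟨a1, b1, a2, b2, ε, g1, g2, hfact, h1, h2, h3, h4⟩ :=
    exists_edge_factorisation_div hp hz hz' f1 f2 hf1 hf2
      (fun h hpr ha hb n1 n2 => H h hpr ha hb f1 f2 hf2 hmul n1 n2)
  refine ⟨(a1 : ℤ) - a2, (b1 : ℤ) - b2, ε, g1, g2, h1, h2, h3, h4, ?_⟩
  have hzK : algebraMap R K z ≠ 0 := fun h0 => hz.ne_zero (hinj (by rw [h0, map_zero]))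
  have hz'K : algebraMap R K z' ≠ 0 := fun h0 => hz'.ne_zero (hinj (by rw [h0, map_zero]))
  have hg2 : g2 ≠ 0 := by
    rintro rfl
    exact h3 (dvd_zero z)
  have hg2K : algebraMap R K g2 ≠ 0 := fun h0 => hg2 (hinj (by rw [h0, map_zero]))
  have hK := congrArg (algebraMap R K) hfact
  simp only [map_mul, map_pow] at hK
  rw [zpow_sub₀ hzK, zpow_sub₀ hz'K, zpow_natCast, zpow_natCast, zpow_natCast, zpow_natCast,
    div_pow, ← hfrac]
  field_simp
  linear_combination hK

/-- division by `π0 ^ A`, `π0 = z z' υ` -/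
theorem edge_div_pow {z z' π0 : R} (υ : Rˣ) (hπ : π0 = z * z' * υ) (hz0 : z ≠ 0) (hz'0 : z' ≠ 0)
    {f : K} {A B : ℤ} {p : ℕ} {ε : Rˣ} {g1 g2 : R}
    (hfe : f = algebraMap R K ε * algebraMap R K z ^ A * algebraMap R K z' ^ B *
        (algebraMap R K g1 / algebraMap R K g2) ^ p) :
    f / algebraMap R K π0 ^ A = algebraMap R K ε * (algebraMap R K (υ : R)) ^ (-A) *
      algebraMap R K z' ^ (B - A) * (algebraMap R K g1 / algebraMap R K g2) ^ p := by
  have hinj : Function.Injective (algebraMap R K) := IsFractionRing.injective R K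
  have hzK : algebraMap R K z ≠ 0 := fun h0 => hz0 (hinj (by rw [h0, map_zero]))
  have hz'K : algebraMap R K z' ≠ 0 := fun h0 => hz'0 (hinj (by rw [h0, map_zero]))
  have hυK : algebraMap R K (υ : R) ≠ 0 :=
    fun h0 => υ.ne_zero (hinj (by rw [h0, map_zero]))
  rw [hfe, hπ, map_mul, map_mul, mul_zpow, mul_zpow, zpow_sub₀ hz'K, zpow_neg]
  field_simp

end Fermat.Agent.S40x.Edge
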