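import Mathlib

/-!
# S40 research (R1-E, edge lemma by commutative algebra), Mathlib only

In a unique factorisation domain:

* `exists_unit_mul_pow_of_forall_prime` **(A)**: if every prime divides `f ≠ 0` to an exact power
  divisible by `p`, then `f = ε * g ^ p` with `ε` a unit.
* `exists_edge_factorisation` **(E)**: `z`, `z'` primes; if every prime `h` not associated to `z`
  or `z'` divides `f ≠ 0` to an exact power divisible by `p`, then
  `f = ε * z ^ a * z' ^ b * g ^ p` with `ε` a unit and `z ∤ g`, `z' ∤ g`.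

"`h ^ n` exactly divides `f`" is written `h ^ n ∣ f ∧ ¬ h ^ (n + 1) ∣ f` (no `multiplicity`).
-/

set_option autoImplicit false
set_option linter.unusedSectionVars false

namespace Fermat.Agent.S40x.Edge

variable {R : Type*} [CommRing R] [IsDomain R] [UniqueFactorizationMonoid R]

/-- exact divisibility of a product by a prime not dividing the first factor -/
theorem exact_pow_mul_of_not_dvd {h c a : R} (hh : Prime h) (hc : ¬ h ∣ c) {n : ℕ}
    (h1 : h ^ n ∣ a) (h2 : ¬ h ^ (n + 1) ∣ a) : h ^ n ∣ c * a ∧ ¬ h ^ (n + 1) ∣ c * a := by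
  refine ⟨Dvd.dvd.mul_left h1 c, fun hdiv => h2 ?_⟩
  -- `h^(n+1) ∣ c * a` and `h ∤ c` give `h^(n+1) ∣ a`
  exact (hh.pow_dvd_of_dvd_mul_left (n + 1) hc hdiv)

/-- **(A)** in a UFD, an element all of whose exact prime exponents are divisible by `p` is a unit
times a `p`-th power. -/
theorem exists_unit_mul_pow_of_forall_prime (p : ℕ) (f : R) (hf : f ≠ 0)
    (H : ∀ h : R, Prime h → ∀ n : ℕ, h ^ n ∣ f → ¬ h ^ (n + 1) ∣ f → p ∣ n) :
    ∃ (ε : Rˣ) (g : R), f = ε * g ^ p := by
  revert hf H
  refine WellFounded.induction (C := fun f => f ≠ 0 →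
    (∀ h : R, Prime h → ∀ n : ℕ, h ^ n ∣ f → ¬ h ^ (n + 1) ∣ f → p ∣ n) →
      ∃ (ε : Rˣ) (g : R), f = ε * g ^ p) wellFounded_dvdNotUnit f ?_
  intro f ih hf H
  · by_cases hu : IsUnit f
    · obtain ⟨ε, rfl⟩ := hu
      exact ⟨ε, 1, by simp⟩
    · obtain ⟨h, hirr, hdvd⟩ := WfDvdMonoid.exists_irreducible_factor hu hf
      have hpr : Prime h := UniqueFactorizationMonoid.irreducible_iff_prime.mp hirr
      obtain ⟨n, a, hna, hfa⟩ := WfDvdMonoid.max_power_factor hf hirr
      have ha0 : a ≠ 0 := by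
        rintro rfl
        exact hf (by rw [hfa]; simp)
      have hn0 : n ≠ 0 := by
        rintro rfl
        apply hna
        rw [hfa, pow_zero, one_mul] at hdvd
        exact hdvd
      -- `h ^ n` exactly divides `f`
      have hexact : ¬ h ^ (n + 1) ∣ f := by
        rw [hfa, pow_succ]
        intro hd
        exact hna ((mul_dvd_mul_iff_left (pow_ne_zero n hpr.ne_zero)).mp hd)
      have hpn : p ∣ n := H h hpr n ⟨a, hfa⟩ hexact
      obtain ⟨m, rfl⟩ := hpn
      -- induction hypothesis for `a`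
      have hlt : DvdNotUnit a f := by
        refine ⟨ha0, h ^ (p * m), ?_, by rw [hfa]; ring⟩
        exact fun hunit => hirr.not_isUnit (isUnit_of_dvd_unit
          (dvd_pow_self h hn0) hunit)
      have Ha : ∀ h' : R, Prime h' → ∀ k : ℕ, h' ^ k ∣ a → ¬ h' ^ (k + 1) ∣ a → p ∣ k := by
        intro h' hpr' k hk1 hk2
        by_cases hh' : h' ∣ h
        · -- `h'` associated to `h`, so `h' ∤ a` and `k = 0`
          have hass : Associated h' h := hpr'.associated_of_dvd hpr hh'
          have : k = 0 := by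
            by_contra hk0
            apply hna
            exact hass.symm.dvd.trans ((dvd_pow_self h' hk0).trans hk1)
          subst this
          exact dvd_zero p
        · have hhn : ¬ h' ∣ h ^ (p * m) := fun hd => hh' (hpr'.dvd_of_dvd_pow hd)
          have := exact_pow_mul_of_not_dvd hpr' hhn hk1 hk2
          rw [← hfa] at this
          exact H h' hpr' k this.1 this.2
      obtain ⟨ε, g, hg⟩ := ih a hlt ha0 Ha
      refine ⟨ε, h ^ m * g, ?_⟩
      rw [hfa, hg]
      ring

/-- **(E)** edge factorisation: in a UFD with two primes `z`, `z'`, an element all of whose exact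
exponents at the OTHER primes are divisible by `p` is `ε * z ^ a * z' ^ b * g ^ p` with `g` prime
to `z` and `z'`. -/
theorem exists_edge_factorisation {p : ℕ} (hp : p ≠ 0) {z z' : R} (hz : Prime z) (hz' : Prime z')
    (f : R) (hf : f ≠ 0)
    (H : ∀ h : R, Prime h → ¬ Associated h z → ¬ Associated h z' →
      ∀ n : ℕ, h ^ n ∣ f → ¬ h ^ (n + 1) ∣ f → p ∣ n) :
    ∃ (a b : ℕ) (ε : Rˣ) (g : R), f = ε * z ^ a * z' ^ b * g ^ p ∧ ¬ z ∣ g ∧ ¬ z' ∣ g := by
  obtain ⟨a, f1, hzf1, hfa⟩ := WfDvdMonoid.max_power_factor hf hz.irreducible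
  have hf1 : f1 ≠ 0 := by
    rintro rfl
    exact hf (by rw [hfa]; simp)
  obtain ⟨b, f2, hz'f2, hfb⟩ := WfDvdMonoid.max_power_factor hf1 hz'.irreducible
  have hf2 : f2 ≠ 0 := by
    rintro rfl
    exact hf1 (by rw [hfb]; simp)
  have hzf2 : ¬ z ∣ f2 := fun hd => hzf1 (hfb ▸ Dvd.dvd.mul_left hd _)
  have hfeq : f = (z ^ a * z' ^ b) * f2 := by rw [hfa, hfb]; ring
  have H2 : ∀ h : R, Prime h → ∀ n : ℕ, h ^ n ∣ f2 → ¬ h ^ (n + 1) ∣ f2 → p ∣ n := by
    intro h hpr n hn1 hn2
    by_cases h1 : Associated h z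
    · have : n = 0 := by
        by_contra hn0
        exact hzf2 (h1.symm.dvd.trans ((dvd_pow_self h hn0).trans hn1))
      subst this
      exact dvd_zero p
    by_cases h2 : Associated h z'
    · have : n = 0 := by
        by_contra hn0
        exact hz'f2 (h2.symm.dvd.trans ((dvd_pow_self h hn0).trans hn1))
      subst this
      exact dvd_zero p
    have hc : ¬ h ∣ z ^ a * z' ^ b := by
      intro hd
      rcases hpr.dvd_or_dvd hd with hd | hd
      · exact h1 (hpr.associated_of_dvd hz (hpr.dvd_of_dvd_pow hd))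
      · exact h2 (hpr.associated_of_dvd hz' (hpr.dvd_of_dvd_pow hd))
    have := exact_pow_mul_of_not_dvd hpr hc hn1 hn2
    rw [← hfeq] at this
    exact H h hpr h1 h2 n this.1 this.2
  obtain ⟨ε, g, hg⟩ := exists_unit_mul_pow_of_forall_prime p f2 hf2 H2
  refine ⟨a, b, ε, g, by rw [hfeq, hg]; ring, fun hd => hzf2 ?_, fun hd => hz'f2 ?_⟩
  · rw [hg]
    exact Dvd.dvd.mul_left (dvd_pow hd hp) _
  · rw [hg]
    exact Dvd.dvd.mul_left (dvd_pow hd hp) _

end Fermat.Agent.S40x.Edge
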