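import Fermat.Agent.S40x.Edge.PthPower

/-!
# S40 research (R1-E), Mathlib only: the edge factorisation for a quotient `f1 / f2`

`exists_edge_factorisation_div` **(E-div)**: `R` a UFD, `z`, `z'` primes, `f1, f2 ≠ 0` such that for
every prime `h` not associated to `z`, `z'` the exact exponents `n1`, `n2` of `h` in `f1`, `f2`
satisfy `p ∣ n1 - n2` (i.e. `p ∣ ord_h (f1 / f2)`).  Then
`f1 * (z ^ a2 * z' ^ b2 * g2 ^ p) = ε * z ^ a1 * z' ^ b1 * g1 ^ p * f2` with `g1, g2` prime to `z, z'`: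
in the fraction field `f1 / f2 = ε * z ^ (a1 - a2) * z' ^ (b1 - b2) * (g1 / g2) ^ p`.
-/

set_option autoImplicit false
set_option linter.unusedSectionVars false

namespace Fermat.Agent.S40x.Edge

variable {R : Type*} [CommRing R] [IsDomain R] [UniqueFactorizationMonoid R]

/-- uniqueness of the exact exponent -/
theorem exact_pow_unique {h a : R} (hh : Prime h) {n m : ℕ}
    (hn1 : h ^ n ∣ a) (hn2 : ¬ h ^ (n + 1) ∣ a) (hm1 : h ^ m ∣ a) (hm2 : ¬ h ^ (m + 1) ∣ a) :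
    n = m := by
  have _ := hh
  rcases Nat.lt_trichotomy n m with hlt | heq | hgt
  · exact absurd ((pow_dvd_pow h hlt).trans hm1) hn2
  · exact heq
  · exact absurd ((pow_dvd_pow h hgt).trans hn1) hm2

/-- `h ^ n * c` with `h ∤ c` is exactly divisible by `h ^ n` -/
theorem exact_pow_of_eq {h a c : R} (hh : Prime h) {n : ℕ} (hc : ¬ h ∣ c) (ha : a = h ^ n * c) :
    h ^ n ∣ a ∧ ¬ h ^ (n + 1) ∣ a := by
  refine ⟨⟨c, ha⟩, ?_⟩
  rw [ha, pow_succ]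
  intro hd
  exact hc ((mul_dvd_mul_iff_left (pow_ne_zero n hh.ne_zero)).mp hd)

theorem exists_edge_factorisation_div {p : ℕ} (hp : p ≠ 0) {z z' : R} (hz : Prime z)
    (hz' : Prime z') (f1 f2 : R) (hf1 : f1 ≠ 0) (hf2 : f2 ≠ 0)
    (H : ∀ h : R, Prime h → ¬ Associated h z → ¬ Associated h z' →
      ∀ n1 n2 : ℕ, h ^ n1 ∣ f1 → ¬ h ^ (n1 + 1) ∣ f1 → h ^ n2 ∣ f2 → ¬ h ^ (n2 + 1) ∣ f2 →
        (p : ℤ) ∣ (n1 : ℤ) - n2) :
    ∃ (a1 b1 a2 b2 : ℕ) (ε : Rˣ) (g1 g2 : R),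
      f1 * (z ^ a2 * z' ^ b2 * g2 ^ p) = ε * z ^ a1 * z' ^ b1 * g1 ^ p * f2 ∧
      ¬ z ∣ g1 ∧ ¬ z' ∣ g1 ∧ ¬ z ∣ g2 ∧ ¬ z' ∣ g2 := by
  obtain ⟨q, rfl⟩ : ∃ q, p = q + 1 := Nat.exists_eq_succ_of_ne_zero hp
  -- `F := f1 * f2 ^ (p - 1)` has all its other exponents divisible by `p`
  have hF0 : f1 * f2 ^ q ≠ 0 := mul_ne_zero hf1 (pow_ne_zero q hf2)
  have HF : ∀ h : R, Prime h → ¬ Associated h z → ¬ Associated h z' →
      ∀ n : ℕ, h ^ n ∣ f1 * f2 ^ q → ¬ h ^ (n + 1) ∣ f1 * f2 ^ q → (q + 1) ∣ n := by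
    intro h hpr h1 h2 n hn1 hn2
    obtain ⟨n1, c1, hc1, e1⟩ := WfDvdMonoid.max_power_factor hf1 hpr.irreducible
    obtain ⟨n2, c2, hc2, e2⟩ := WfDvdMonoid.max_power_factor hf2 hpr.irreducible
    have hc : ¬ h ∣ c1 * c2 ^ q := by
      intro hd
      rcases hpr.dvd_or_dvd hd with hd | hd
      · exact hc1 hd
      · exact hc2 (hpr.dvd_of_dvd_pow hd)
    have hFe : f1 * f2 ^ q = h ^ (n1 + q * n2) * (c1 * c2 ^ q) := by
      rw [e1, e2]; ring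
    have hex := exact_pow_of_eq hpr hc hFe
    have hn : n = n1 + q * n2 := exact_pow_unique hpr hn1 hn2 hex.1 hex.2
    have hdiv := H h hpr h1 h2 n1 n2 (exact_pow_of_eq hpr hc1 e1).1 (exact_pow_of_eq hpr hc1 e1).2
      (exact_pow_of_eq hpr hc2 e2).1 (exact_pow_of_eq hpr hc2 e2).2
    -- `n = (n1 - n2) + (q + 1) n2`
    have : ((q + 1 : ℕ) : ℤ) ∣ (n : ℤ) := by
      have e : (n : ℤ) = ((n1 : ℤ) - n2) + ((q + 1 : ℕ) : ℤ) * n2 := by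
        rw [hn]; push_cast; ring
      rw [e]
      exact dvd_add hdiv (dvd_mul_right _ _)
    exact_mod_cast this
  obtain ⟨a, b, ε, g, hFg, hzg, hz'g⟩ :=
    exists_edge_factorisation (Nat.succ_ne_zero q) hz hz' (f1 * f2 ^ q) hF0 HF
  -- strip `z`, `z'` from `f2`
  obtain ⟨c, f3, hzf3, e3⟩ := WfDvdMonoid.max_power_factor hf2 hz.irreducible
  have hf3 : f3 ≠ 0 := by
    rintro rfl
    exact hf2 (by rw [e3]; simp)
  obtain ⟨d, f4, hz'f4, e4⟩ := WfDvdMonoid.max_power_factor hf3 hz'.irreducible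
  have hzf4 : ¬ z ∣ f4 := fun hd => hzf3 (e4 ▸ Dvd.dvd.mul_left hd _)
  refine ⟨a, b, (q + 1) * c, (q + 1) * d, ε, g, f4, ?_, hzg, hz'g, hzf4, hz'f4⟩
  have e2 : f2 = z ^ c * (z' ^ d * f4) := by rw [e3, e4]
  have key : f1 * f2 ^ (q + 1) = (ε * z ^ a * z' ^ b * g ^ (q + 1)) * f2 := by
    rw [← hFg]; ring
  calc f1 * (z ^ ((q + 1) * c) * z' ^ ((q + 1) * d) * f4 ^ (q + 1))
      = f1 * (z ^ c * (z' ^ d * f4)) ^ (q + 1) := by ring
    _ = f1 * f2 ^ (q + 1) := by rw [← e2]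
    _ = (ε * z ^ a * z' ^ b * g ^ (q + 1)) * f2 := key

end Fermat.Agent.S40x.Edge
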